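import Fermat.Agent.M5.Order

/-!
# M5: the cuspidal class of `X₀(N)`, `N` prime
-/

set_option autoImplicit false
set_option linter.style.haveILetI false
set_option linter.unusedSectionVars false
set_option maxSynthPendingDepth 3

noncomputable section

open AlgebraicCurve ModularCurve HahnSeries

namespace Fermat.Agent.M5

section

variable (L : Type*) [Field L] [Algebra ℚ L] [IsAlgClosed L] [Algebra.IsAlgebraic ℚ L]

/-- If `r^k ∣ N - 1` and `r^k ∤ 24`, no multiple of `c` prime to `r` vanishes. -/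
theorem smul_cuspClass_ne_zero {N : ℕ} [NeZero N] (hN : N.Prime) {r k : ℕ} (hr : r.Prime)
    (hk : r ^ k ∣ N - 1) (h24 : ¬ r ^ k ∣ 24) {m : ℤ} (hm : ¬ (r : ℤ) ∣ m) :
    m • cuspClass L N ≠ 0 := by
  haveI : CharZero L := charZero_of_injective_algebraMap (algebraMap ℚ L).injective
  intro h0
  obtain ⟨t, ht⟩ := hk
  have hrp : Prime (r : ℤ) := Nat.prime_iff_prime_int.mp hr
  have hcop : IsCoprime m ((r ^ k : ℕ) : ℤ) := by
    push_cast
    exact (IsCoprime.pow_left (hrp.coprime_iff_not_dvd.mpr hm)).symm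
  obtain ⟨g, hg⟩ := exists_root L hN h0 ht hcop
  obtain ⟨A, hA⟩ := H05.exists_liesOverPrime L hr
  have hmem := div_mem_of_root L hN (pow_ne_zero k hr.ne_zero) hg hr A hA
  obtain ⟨a, c, hc, h24'⟩ := Nat.exists_eq_pow_mul_and_not_dvd (n := 24) (by norm_num) r hr.ne_one
  have hak : a < k := by
    by_contra hcon
    push Not at hcon
    apply h24
    rw [h24']
    exact (pow_dvd_pow r hcon).mul_right c
  have hcL : ((c : ℤ) : L) ∉ A.nonunits := H05.natCast_not_mem_nonunits hr hA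
    (fun h => hc (by exact_mod_cast h))
  apply hcL
  have hr0 : (r : L) ≠ 0 := by exact_mod_cast hr.ne_zero
  have h1 : ((c : ℤ) : L) = (r : L) * ((r : L) ^ (k - a - 1) * (24 / ((r ^ k : ℕ) : L))) := by
    have h2 : (24 : L) = (r : L) ^ a * c := by exact_mod_cast h24'
    rw [h2]
    push_cast
    rw [eq_comm, ← mul_assoc, ← pow_succ', mul_div_assoc', div_eq_iff (pow_ne_zero k hr0),
      show k - a - 1 + 1 = k - a by omega, ← mul_assoc, ← _root_.pow_add,
      show k - a + a = k by omega]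
    ring
  rw [h1]
  rw [ValuationSubring.mem_nonunits_iff, map_mul]
  have hA' : A.valuation (r : L) < 1 := by
    rw [← ValuationSubring.mem_nonunits_iff]
    exact hA
  refine mul_lt_one_of_lt_of_le hA' ?_
  rw [A.valuation_le_one_iff]
  exact mul_mem (pow_mem (natCast_mem A r) _) hmem

end

theorem exists_prime_pow {n : ℕ} (h : ¬ n ∣ 24) (hn : n ≠ 0) :
    ∃ r k : ℕ, r.Prime ∧ r ^ k ∣ n ∧ ¬ r ^ k ∣ 24 := by
  by_contra hcon
  push Not at hcon
  apply h
  rw [← Nat.factorization_prime_le_iff_dvd hn (by norm_num)]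
  intro p hp
  exact (hp.pow_dvd_iff_le_factorization (by norm_num)).mp (hcon p _ hp (Nat.ordProj_dvd n p))

theorem not_dvd_24 {N : ℕ} (hN : N.Prime) (h2 : N ≠ 2) (h3 : N ≠ 3) (h5 : N ≠ 5) (h7 : N ≠ 7)
    (h13 : N ≠ 13) : ¬ (N - 1) ∣ 24 := by
  intro h
  have h1 := Nat.le_of_dvd (by norm_num) h
  have h0 := hN.two_le
  have h25 : N ≤ 25 := by omega
  interval_cases N <;> first | omega | (exfalso; revert hN; decide)

section QBar

instance isAlgebraic_Qbar' : Algebra.IsAlgebraic ℚ (AlgebraicClosure ℚ) := H51.isAlgebraic_Qbar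

/-- The cusp `∞` of `X₀(N)` over `ℚ̄` (type I). -/
abbrev c₁ (N : ℕ) : Place (AlgebraicClosure ℚ) (modularFunctionFieldBar N) :=
  cInf (AlgebraicClosure ℚ) N

/-- The cusp `0` of `X₀(N)` over `ℚ̄` (type II). -/
abbrev c₂ (N : ℕ) [NeZero N] : Place (AlgebraicClosure ℚ) (modularFunctionFieldBar N) :=
  cZero (AlgebraicClosure ℚ) N

/-- The cuspidal class `c = [c₂] - [c₁]`. -/
abbrev cc (N : ℕ) [NeZero N] : JZero N := cuspClass (AlgebraicClosure ℚ) N

variable {N : ℕ} [NeZero N]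

theorem smul_c₁ (σ : AlgebraicClosure ℚ ≃ₐ[ℚ] AlgebraicClosure ℚ) :
    arithmeticGalois (modularFunctionFieldFull N) σ • c₁ N = c₁ N :=
  galois_smul_cInf _ N σ

theorem smul_c₂ (hN : N.Prime) (σ : AlgebraicClosure ℚ ≃ₐ[ℚ] AlgebraicClosure ℚ) :
    arithmeticGalois (modularFunctionFieldFull N) σ • c₂ N = c₂ N :=
  galois_smul_cZero _ hN σ

theorem smul_cc (hN : N.Prime) (σ : AlgebraicClosure ℚ ≃ₐ[ℚ] AlgebraicClosure ℚ) :
    arithmeticGalois (modularFunctionFieldFull N) σ • cc N = cc N := by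
  change Pic0.mk _ = Pic0.mk _
  congr 1
  apply Subtype.ext
  change arithmeticGalois (modularFunctionFieldFull N) σ •
    (Finsupp.single (c₂ N) (1 : ℤ) - Finsupp.single (c₁ N) (1 : ℤ)) =
    Finsupp.single (c₂ N) 1 - Finsupp.single (c₁ N) 1
  rw [smul_sub, SemilinearAut.smul_single, SemilinearAut.smul_single, smul_c₁, smul_c₂ hN]

/-- **`T_ℓ c = (1 + ℓ) c`.** -/
theorem hecke_cc (hN : N.Prime) (ℓ : Nat.Primes) (hℓ : (ℓ : ℕ) ≠ N) :
    heckeOperatorBar N ℓ (cc N) = (1 + ((ℓ : ℕ) : ℤ)) • cc N := by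
  rw [heckeOperatorBar_apply]
  haveI : Fact (ℓ : ℕ).Prime := ⟨ℓ.2⟩
  exact heckeOperatorAlong_cuspClass (AlgebraicClosure ℚ) N ℓ
    (fun h => hℓ ((Nat.prime_dvd_prime_iff_eq ℓ.2 hN).mp h))

/-- `c` is torsion. -/
theorem torsion_cc (hN : N.Prime) : ((N : ℤ) - 1) • cc N = 0 := sub_one_smul_cuspClass _ hN

/-- **The order of `c`**: there is a prime `r ∣ N - 1` such that no multiple of `c` prime to `r`
vanishes. -/
theorem exists_prime_cc (hN : N.Prime) (h2 : N ≠ 2) (h3 : N ≠ 3) (h5 : N ≠ 5) (h7 : N ≠ 7)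
    (h13 : N ≠ 13) : ∃ r : ℕ, r.Prime ∧ r ∣ N - 1 ∧
      ∀ m : ℤ, ¬ (r : ℤ) ∣ m → m • cc N ≠ 0 := by
  obtain ⟨r, k, hr, hk, h24⟩ := exists_prime_pow (not_dvd_24 hN h2 h3 h5 h7 h13)
    (by have := hN.two_le; omega)
  refine ⟨r, hr, ?_, fun m hm => smul_cuspClass_ne_zero _ hN hr hk h24 hm⟩
  refine (dvd_pow_self r ?_).trans hk
  rintro rfl
  exact h24 (by rw [pow_zero]; exact one_dvd _)

/-- The poles of `j` are the two cusps. -/
theorem eq_c₁_or_c₂ (hN : N.Prime) (v : Place (AlgebraicClosure ℚ) (modularFunctionFieldBar N))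
    (hv : v.ord (jB (AlgebraicClosure ℚ) (one_dvd N)) < 0) : v = c₁ N ∨ v = c₂ N :=
  cusp_cases _ hN v hv

end QBar

end Fermat.Agent.M5
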