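import Fermat.Agent.M5.HeckeCusp
import Fermat.Agent.H18_ModDeg
import Fermat.Agent.FF.T8
import Fermat.Agent.H51.QbarGalois

/-!
# The poles of `j` are the cusps `∞` and `0` (prime level)
-/

set_option autoImplicit false
set_option linter.style.haveILetI false
set_option linter.unusedSectionVars false
set_option maxSynthPendingDepth 3

noncomputable section

open AlgebraicCurve ModularCurve

namespace Fermat.Agent.M5

theorem degree_nonneg {K F : Type*} [Field K] [Field F] [Algebra K F] {D : Divisor K F}
    (h : ∀ v, 0 ≤ D v) : 0 ≤ Divisor.degree D := by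
  have : Divisor.degree D = D.sum fun v n => n * (v.deg : ℤ) := rfl
  rw [this, Finsupp.sum]
  exact Finset.sum_nonneg fun v _ => mul_nonneg (h v) (by positivity)

theorem dedekindPsi_prime {N : ℕ} (hN : N.Prime) : dedekindPsi N = N + 1 := by
  have h := Igusa.dedekindPsi_mul_prime (N := 1) hN one_ne_zero
  rw [one_mul, dedekindPsi_one, one_mul] at h
  rw [h, if_neg]
  rw [Nat.dvd_one]
  exact hN.one_lt.ne'

section

variable (L : Type*) [Field L] [Algebra ℚ L] [IsAlgClosed L] [Algebra.IsAlgebraic ℚ L]

theorem nonempty_algebra_complex : Nonempty (Algebra L ℂ) :=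
  ⟨((IsAlgClosed.lift : L →ₐ[ℚ] ℂ) : L →+* ℂ).toAlgebra⟩

theorem degree_poles_jB [CharZero L] (N : ℕ) [NeZero N] :
    Divisor.degree (FF.poles (K := L) (jB L (one_dvd N))) = dedekindPsi N := by
  obtain ⟨inst⟩ := nonempty_algebra_complex L
  have h1 : H18.jB L N = jB L (one_dvd N) := Subtype.ext rfl
  have h2 := H18.transcendental_jB (K := L) (N := N)
  have h3 := H18.finrank_adjoin_jB (K := L) (N := N)
  rw [h1] at h2 h3
  rw [FF.degree_poles _ h2, h3]

theorem cInf_ne_cZero {N : ℕ} [NeZero N] (hN : 1 < N) : cInf L N ≠ cZero L N := by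
  intro h
  have h1 := cInf_ord_jB L (one_dvd N)
  have h2 := cZero_ord_jB L N
  rw [← h, h1] at h2
  push_cast at h2
  omega

/-- **The cusps of `X₀(N)`, `N` prime, are `∞` and `0`.** -/
theorem cusp_cases {N : ℕ} [NeZero N] (hN : N.Prime) (v : Place L (FB L N))
    (hv : v.ord (jB L (one_dvd N)) < 0) : v = cInf L N ∨ v = cZero L N := by
  haveI : CharZero L := charZero_of_injective_algebraMap (algebraMap ℚ L).injective
  classical
  by_contra hcon
  push Not at hcon
  obtain ⟨h1, h2⟩ := hcon
  have h12 := cInf_ne_cZero L hN.one_lt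
  have hdeg := degree_poles_jB L N
  rw [dedekindPsi_prime hN] at hdeg
  have hge : 0 ≤ Divisor.degree (FF.poles (K := L) (jB L (one_dvd N)) -
      (Finsupp.single (cInf L N) 1 + Finsupp.single (cZero L N) (N : ℤ) +
        Finsupp.single v 1)) := by
    apply degree_nonneg
    intro w
    rw [Finsupp.sub_apply, Finsupp.add_apply, Finsupp.add_apply, FF.poles_apply]
    by_cases hw1 : w = cInf L N
    · subst hw1
      rw [Finsupp.single_eq_same, Finsupp.single_eq_of_ne h12, Finsupp.single_eq_of_ne (Ne.symm h1),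
        cInf_ord_jB]
      simp
    by_cases hw2 : w = cZero L N
    · subst hw2
      rw [Finsupp.single_eq_same, Finsupp.single_eq_of_ne h12.symm,
        Finsupp.single_eq_of_ne (Ne.symm h2), cZero_ord_jB]
      simp
    by_cases hw3 : w = v
    · subst hw3
      rw [Finsupp.single_eq_same, Finsupp.single_eq_of_ne hw1, Finsupp.single_eq_of_ne hw2]
      have : 1 ≤ max (-w.ord (jB L (one_dvd N))) 0 := le_max_of_le_left (by omega)
      omega
    · rw [Finsupp.single_eq_of_ne hw1, Finsupp.single_eq_of_ne hw2, Finsupp.single_eq_of_ne hw3]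
      have : 0 ≤ max (-w.ord (jB L (one_dvd N))) 0 := le_max_right _ _
      omega
  rw [map_sub, map_add, map_add, Divisor.degree_single, Divisor.degree_single,
    Divisor.degree_single, hdeg, H05.deg_eq_one_bc L N, H05.deg_eq_one_bc L N,
    H05.deg_eq_one_bc L N] at hge
  push_cast at hge
  omega

end

section Galois

variable (L : Type*) [Field L] [Algebra ℚ L]

theorem galois_smul_cInf (N : ℕ) (σ : L ≃ₐ[ℚ] L) :
    arithmeticGalois (modularFunctionFieldFull N) σ • cInf L N = cInf L N := by
  apply place_ext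
  intro f _
  have h1 := SemilinearAut.ord_smul (arithmeticGalois (modularFunctionFieldFull N) σ)
    (cInf L N) ((arithmeticGalois (modularFunctionFieldFull N) σ)⁻¹ • f)
  rw [smul_inv_smul] at h1
  rw [h1]
  have h2 : ∀ g : FB L N, (cInf L N).ord (arithmeticGalois (modularFunctionFieldFull N) σ • g) =
      (cInf L N).ord g := by
    intro g
    rw [cInf_ord, cInf_ord]
    exact H26.order_coeffMap (σ : L →+* L) (g : LaurentSeries L)
  rw [← h2 ((arithmeticGalois (modularFunctionFieldFull N) σ)⁻¹ • f), smul_inv_smul]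

variable [IsAlgClosed L] [Algebra.IsAlgebraic ℚ L]

theorem galois_smul_jB {N : ℕ} {d : ℕ} [NeZero d] (hd : d ∣ N) (σ : L ≃ₐ[ℚ] L) :
    arithmeticGalois (modularFunctionFieldFull N) σ • jB L hd = jB L hd := by
  apply Subtype.ext
  exact Igusa.coeffMap_jd (σ : L →+* L) d

theorem galois_smul_cZero {N : ℕ} [NeZero N] (hN : N.Prime) (σ : L ≃ₐ[ℚ] L) :
    arithmeticGalois (modularFunctionFieldFull N) σ • cZero L N = cZero L N := by
  have h1 := SemilinearAut.ord_smul (arithmeticGalois (modularFunctionFieldFull N) σ)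
    (cZero L N) (jB L (one_dvd N))
  rw [galois_smul_jB, cZero_ord_jB] at h1
  have h2 : (arithmeticGalois (modularFunctionFieldFull N) σ • cZero L N).ord
      (jB L (one_dvd N)) < 0 := by
    rw [h1]
    have := hN.pos
    omega
  rcases cusp_cases L hN _ h2 with h3 | h3
  · exfalso
    rw [← galois_smul_cInf L N σ] at h3
    exact cInf_ne_cZero L hN.one_lt (smul_left_cancel _ h3).symm
  · exact h3

end Galois

end Fermat.Agent.M5
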