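import Fermat.Agent.H05.GalHecke
import Fermat.Agent.Q.AtkinLehner

/-!
# Pullback and pushforward of a place whose fibre is known
-/

set_option autoImplicit false
set_option linter.style.haveILetI false
set_option linter.unusedSectionVars false
set_option maxSynthPendingDepth 3

noncomputable section

open AlgebraicCurve ModularCurve

namespace Fermat.Agent.M5

section Generic

variable {K F F' : Type*} [Field K] [Field F] [Field F'] [Algebra K F] [Algebra K F']

theorem place_ext {v w : Place K F} (h : ∀ f, f ≠ 0 → (0 ≤ v.ord f ↔ 0 ≤ w.ord f)) : v = w := by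
  apply Place.ext
  refine SetLike.ext fun f => ?_
  by_cases hf : f = 0
  · subst hf
    exact ⟨fun _ => zero_mem _, fun _ => zero_mem _⟩
  · rw [H18.mem_iff, H18.mem_iff]
    exact h f hf

theorem restrictAlong_eq (φ : F →ₐ[K] F') (hφ : φ.toRingHom.IsIntegral) {w : Place K F'}
    {v : Place K F} {e : ℤ} (he : 0 < e) (h : ∀ f, f ≠ 0 → w.ord (φ f) = e * v.ord f) :
    w.restrictAlong φ hφ = v := by
  apply place_ext
  intro f hf
  have h1 := Place.ord_restrictAlong φ hφ w f
  rw [h f hf] at h1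
  have h2 : (0 : ℤ) < Place.ramificationIndexAlong φ w := by
    letI := algebraAlong φ
    haveI := isScalarTower_along φ
    haveI := isIntegral_along φ hφ
    exact_mod_cast w.ramificationIndex_pos (F := F)
  constructor
  · intro h3
    have h4 : 0 ≤ e * v.ord f := by rw [h1]; positivity
    exact nonneg_of_mul_nonneg_right h4 he
  · intro h3
    have h4 : 0 ≤ (Place.ramificationIndexAlong φ w : ℤ) * (w.restrictAlong φ hφ).ord f := by
      rw [← h1]; positivity
    exact nonneg_of_mul_nonneg_right h4 h2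

theorem ramificationIndexAlong_pos (φ : F →ₐ[K] F') (hφ : φ.toRingHom.IsIntegral)
    (w : Place K F') : 0 < Place.ramificationIndexAlong φ w := by
  letI := algebraAlong φ
  haveI := isScalarTower_along φ
  haveI := isIntegral_along φ hφ
  exact w.ramificationIndex_pos (F := F)

theorem ramificationIndexAlong_eq (φ : F →ₐ[K] F') (hφ : φ.toRingHom.IsIntegral)
    {w : Place K F'} {v : Place K F} {e : ℤ} (he : 0 < e)
    (h : ∀ f, f ≠ 0 → w.ord (φ f) = e * v.ord f) :
    (Place.ramificationIndexAlong φ w : ℤ) = e := by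
  obtain ⟨t, ht0, ht⟩ := H18.exists_ord_eq_one v
  have h1 := Place.ord_restrictAlong φ hφ w t
  rw [restrictAlong_eq φ hφ he h, h t ht0, ht] at h1
  omega

theorem inertiaDegAlong_eq_one (hd : ∀ w : Place K F', w.deg = 1) (φ : F →ₐ[K] F')
    (hφ : φ.toRingHom.IsIntegral) (w : Place K F') : Place.inertiaDegAlong φ hφ w = 1 :=
  haveI : ∀ w : Place K F', Fact (w.deg = 1) := fun w => ⟨hd w⟩
  H05.inertiaDegAlong_eq_one φ hφ w

theorem sum_ramificationIndexAlong [HasPrincipalDivisors K F'] (φ : F →ₐ[K] F')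
    (hφ : φ.toRingHom.IsIntegral) (hFI : FundamentalIdentityAlong K φ hφ)
    (hd' : ∀ w : Place K F', w.deg = 1) (hd : ∀ w : Place K F, w.deg = 1) (v : Place K F) :
    ∑ W ∈ Place.fiberAlong φ hφ v, (W.ramificationIndexAlong φ : ℤ) = finrankAlong K φ := by
  letI := algebraAlong φ
  haveI := isScalarTower_along φ
  haveI := isIntegral_along φ hφ
  haveI : FundamentalIdentity K F F' := hFI
  have h := FundamentalIdentity.sum_ramificationIndex_mul_deg (K := K) (F := F) (F' := F') v
  simp only [hd', hd, Nat.cast_one, mul_one] at h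
  exact h

theorem fiberAlong_eq_pair [HasPrincipalDivisors K F'] (φ : F →ₐ[K] F')
    (hφ : φ.toRingHom.IsIntegral) (hFI : FundamentalIdentityAlong K φ hφ)
    (hd' : ∀ w : Place K F', w.deg = 1) (hd : ∀ w : Place K F, w.deg = 1) {v : Place K F}
    {w₁ w₂ : Place K F'} (hne : w₁ ≠ w₂) (h₁ : w₁.restrictAlong φ hφ = v)
    (h₂ : w₂.restrictAlong φ hφ = v)
    (hsum : finrankAlong K φ ≤ w₁.ramificationIndexAlong φ + w₂.ramificationIndexAlong φ) :
    open scoped Classical in Place.fiberAlong φ hφ v = {w₁, w₂} := by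
  classical
  have hs := sum_ramificationIndexAlong φ hφ hFI hd' hd v
  have hsub : ({w₁, w₂} : Finset (Place K F')) ⊆ Place.fiberAlong φ hφ v := by
    intro w hw
    rw [Finset.mem_insert, Finset.mem_singleton] at hw
    rw [Place.mem_fiberAlong]
    rcases hw with rfl | rfl
    · exact h₁
    · exact h₂
  refine (Finset.eq_of_subset_of_card_le hsub ?_).symm
  by_contra hcard
  push Not at hcard
  obtain ⟨w₃, hw₃, hw₃'⟩ := Finset.exists_mem_notMem_of_card_lt_card hcard
  have hsub' : insert w₃ ({w₁, w₂} : Finset (Place K F')) ⊆ Place.fiberAlong φ hφ v := by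
    rw [Finset.insert_subset_iff]
    exact ⟨hw₃, hsub⟩
  have h3 := Finset.sum_le_sum_of_subset_of_nonneg (f := fun W : Place K F' =>
    (W.ramificationIndexAlong φ : ℤ)) hsub' (fun _ _ _ => by positivity)
  rw [Finset.sum_insert hw₃', Finset.sum_pair hne, hs] at h3
  have h4 := ramificationIndexAlong_pos φ hφ w₃
  have h5 : (finrankAlong K φ : ℤ) ≤ w₁.ramificationIndexAlong φ + w₂.ramificationIndexAlong φ := by
    exact_mod_cast hsum
  have h6 : (0 : ℤ) < w₃.ramificationIndexAlong φ := by exact_mod_cast h4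
  omega

theorem pullbackAlong_single_pair [HasPrincipalDivisors K F'] (φ : F →ₐ[K] F')
    (hφ : φ.toRingHom.IsIntegral) (hFI : FundamentalIdentityAlong K φ hφ)
    (hd' : ∀ w : Place K F', w.deg = 1) (hd : ∀ w : Place K F, w.deg = 1) {v : Place K F}
    {w₁ w₂ : Place K F'} (hne : w₁ ≠ w₂) {e₁ e₂ : ℤ} (he₁ : 0 < e₁) (he₂ : 0 < e₂)
    (h₁ : ∀ f, f ≠ 0 → w₁.ord (φ f) = e₁ * v.ord f)
    (h₂ : ∀ f, f ≠ 0 → w₂.ord (φ f) = e₂ * v.ord f)
    (hsum : (finrankAlong K φ : ℤ) ≤ e₁ + e₂) (n : ℤ) :
    Divisor.pullbackAlong φ hφ (Finsupp.single v n) =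
      Finsupp.single w₁ (n * e₁) + Finsupp.single w₂ (n * e₂) := by
  classical
  have hr₁ := ramificationIndexAlong_eq φ hφ he₁ h₁
  have hr₂ := ramificationIndexAlong_eq φ hφ he₂ h₂
  rw [Divisor.pullbackAlong_single,
    fiberAlong_eq_pair φ hφ hFI hd' hd hne (restrictAlong_eq φ hφ he₁ h₁)
      (restrictAlong_eq φ hφ he₂ h₂) (by rw [← hr₁, ← hr₂] at hsum; exact_mod_cast hsum),
    Finset.sum_pair hne, hr₁, hr₂]

theorem pushforwardAlong_single_of (hd' : ∀ w : Place K F', w.deg = 1) (φ : F →ₐ[K] F')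
    (hφ : φ.toRingHom.IsIntegral) {w : Place K F'} {v : Place K F} {e : ℤ} (he : 0 < e)
    (h : ∀ f, f ≠ 0 → w.ord (φ f) = e * v.ord f) (n : ℤ) :
    Divisor.pushforwardAlong φ hφ (Finsupp.single w n) = Finsupp.single v n := by
  rw [Divisor.pushforwardAlong_single, restrictAlong_eq φ hφ he h,
    inertiaDegAlong_eq_one hd' φ hφ w]
  simp

theorem finrankAlong_comp (φ : F →ₐ[K] F') (e : F' ≃ₐ[K] F') :
    finrankAlong K ((e : F' →ₐ[K] F').comp φ) = finrankAlong K φ := by
  unfold finrankAlong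
  symm
  refine @LinearEquiv.finrank_eq F F' F' _ _ (algebraAlong φ).toModule _
    (algebraAlong ((e : F' →ₐ[K] F').comp φ)).toModule ?_
  letI := algebraAlong φ
  exact
    @LinearEquiv.mk F F _ _ (RingHom.id F) (RingHom.id F) _ _ F' F' _ _
      (algebraAlong φ).toModule (algebraAlong ((e : F' →ₐ[K] F').comp φ)).toModule
      (@LinearMap.mk F F _ _ (RingHom.id F) F' F' _ _
      (algebraAlong φ).toModule (algebraAlong ((e : F' →ₐ[K] F').comp φ)).toModule
      ⟨fun x => e x, fun x y => map_add e x y⟩ (fun a x => by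
        change e (φ a * x) = e (φ a) * e x
        exact map_mul e _ _)) (fun x => e.symm x) (fun x => e.symm_apply_apply x)
      (fun x => e.apply_symm_apply x)

end Generic

end Fermat.Agent.M5
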