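import Fermat.Agent.M5.Cusps

/-!
# Hecke operators on cusps
-/

set_option autoImplicit false
set_option linter.style.haveILetI false
set_option linter.unusedSectionVars false
set_option maxSynthPendingDepth 3

noncomputable section

open AlgebraicCurve ModularCurve

namespace Fermat.Agent.M5

section Basic

variable (L : Type*) [Field L] [Algebra ℚ L]

theorem algHom_ext_FB {N : ℕ} {A : Type*} [Field A] [Algebra L A] {f g : FB L N →ₐ[L] A}
    (h : ∀ (d : ℕ) [NeZero d] (hd : d ∣ N), f (jB L hd) = g (jB L hd)) : f = g := by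
  have key : ∀ (E : IntermediateField L (LaurentSeries L))
      (_ : E = modularFunctionFieldFullC L N) (f g : E →ₐ[L] A)
      (_ : ∀ (d : ℕ) [NeZero d] (_ : d ∣ N) (hm : Igusa.jd L d ∈ E),
        f ⟨Igusa.jd L d, hm⟩ = g ⟨Igusa.jd L d, hm⟩), f = g := by
    intro E hE f g hfg
    subst hE
    apply IntermediateField.adjoin_algHom_ext
    rintro x ⟨d, hd, hdvd, rfl⟩
    haveI := hd
    exact hfg d hdvd _
  exact key (FB L N) (H05.laurentBaseChange_full L N) f g (fun d _ hd _ => h d hd)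

variable [Algebra.IsAlgebraic ℚ L]

theorem coe_wB_jd {M Q N : ℕ} [NeZero M] [NeZero Q] (h : M * Q = N) (hQM : Nat.Coprime Q M)
    {d e : ℕ} [NeZero d] [NeZero e] {d₁ d₂ : ℕ} (h1 : d₁ ∣ Q) (h2 : d₂ ∣ M) (hd : d₁ * d₂ = d)
    (he : Q / d₁ * d₂ = e) (hdN : d ∣ N) :
    (wB L h hQM (jB L hdN) : LaurentSeries L) = Igusa.jd L e := by
  have hm : Igusa.jd L d ∈ modularFunctionFieldFullC L (M * Q) := by
    rw [h]
    exact Igusa.jd_mem_full hdN
  exact (coe_wB' L h hQM (jB L hdN) ⟨Igusa.jd L d, hm⟩ rfl).trans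
    (Fermat.Agent.Q.coe_wQ_jd' L hQM h1 h2 hd he hm)

/-- compatibility of Atkin-Lehner involutions and degeneracy maps. -/
theorem coe_wB_alpha {M Q N M' ℓ : ℕ} [NeZero M] [NeZero Q] [NeZero N] [NeZero M'] [NeZero ℓ]
    (h : M * Q = N) (hQM : Nat.Coprime Q M) (hM' : M' = M * ℓ)
    (h' : M' * Q = N * ℓ) (hQM' : Nat.Coprime Q M') (x : FB L N) :
    (wB L h' hQM' (heckeAlphaBar L N ℓ x) : LaurentSeries L) = wB L h hQM x := by
  have : ((FB L (N * ℓ)).val.comp (wB L h' hQM' : FB L (N * ℓ) →ₐ[L] FB L (N * ℓ))).comp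
      (heckeAlphaBar L N ℓ) = (FB L N).val.comp (wB L h hQM : FB L N →ₐ[L] FB L N) := by
    apply algHom_ext_FB
    intro d _ hd
    have hd' := hd
    rw [← h, mul_comm, Nat.dvd_mul] at hd'
    obtain ⟨d₁, d₂, h1, h2, rfl⟩ := hd'
    have e1 : heckeAlphaBar L N ℓ (jB L hd) = jB L (hd.mul_right ℓ) := Subtype.ext rfl
    haveI : NeZero (Q / d₁ * d₂) := ⟨mul_ne_zero
      (Nat.div_pos (Nat.le_of_dvd (NeZero.pos Q) h1) (Nat.pos_of_dvd_of_pos h1 (NeZero.pos Q))).ne'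
      (fun h0 => by rw [h0] at h2; exact NeZero.ne M (Nat.eq_zero_of_zero_dvd h2))⟩
    change (wB L h' hQM' (heckeAlphaBar L N ℓ (jB L hd)) : LaurentSeries L) =
      (wB L h hQM (jB L hd) : LaurentSeries L)
    rw [e1, coe_wB_jd L h' hQM' h1 (hM' ▸ h2.mul_right ℓ) rfl rfl,
      coe_wB_jd L h hQM h1 h2 rfl rfl]
  exact congrArg (fun f : FB L N →ₐ[L] _ => f x) this

theorem coe_wB_beta {M Q N M' ℓ : ℕ} [NeZero M] [NeZero Q] [NeZero N] [NeZero M'] [NeZero ℓ]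
    (h : M * Q = N) (hQM : Nat.Coprime Q M) (hM' : M' = M * ℓ)
    (h' : M' * Q = N * ℓ) (hQM' : Nat.Coprime Q M') (x : FB L N) :
    (wB L h' hQM' (heckeBetaBar L N ℓ x) : LaurentSeries L) = qExpand L ℓ (wB L h hQM x) := by
  have : ((FB L (N * ℓ)).val.comp (wB L h' hQM' : FB L (N * ℓ) →ₐ[L] FB L (N * ℓ))).comp
      (heckeBetaBar L N ℓ) =
      (qExpandAlgHomC L ℓ).comp ((FB L N).val.comp (wB L h hQM : FB L N →ₐ[L] FB L N)) := by
    apply algHom_ext_FB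
    intro d _ hd
    have hd' := hd
    rw [← h, mul_comm, Nat.dvd_mul] at hd'
    obtain ⟨d₁, d₂, h1, h2, rfl⟩ := hd'
    haveI : NeZero (ℓ * (d₁ * d₂)) := ⟨mul_ne_zero (NeZero.ne _) (NeZero.ne _)⟩
    have e1 : heckeBetaBar L N ℓ (jB L hd) =
        jB L (d := ℓ * (d₁ * d₂)) (mul_comm ℓ (d₁ * d₂) ▸ mul_dvd_mul_right hd ℓ) :=
      Subtype.ext (Igusa.qExpand_jd L ℓ (d₁ * d₂))
    haveI : NeZero (Q / d₁ * d₂) := ⟨mul_ne_zero
      (Nat.div_pos (Nat.le_of_dvd (NeZero.pos Q) h1) (Nat.pos_of_dvd_of_pos h1 (NeZero.pos Q))).ne'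
      (fun h0 => by rw [h0] at h2; exact NeZero.ne M (Nat.eq_zero_of_zero_dvd h2))⟩
    haveI : NeZero (ℓ * (Q / d₁ * d₂)) := ⟨mul_ne_zero (NeZero.ne _) (NeZero.ne _)⟩
    change (wB L h' hQM' (heckeBetaBar L N ℓ (jB L hd)) : LaurentSeries L) =
      qExpand L ℓ (wB L h hQM (jB L hd) : LaurentSeries L)
    rw [e1, coe_wB_jd L h' hQM' (d₁ := d₁) (d₂ := ℓ * d₂) (e := ℓ * (Q / d₁ * d₂)) h1
      (by rw [hM', mul_comm M]; exact mul_dvd_mul_left ℓ h2) (by ring) (by ring),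
      coe_wB_jd L h hQM h1 h2 rfl rfl, Igusa.qExpand_jd]
  exact congrArg (fun f : FB L N →ₐ[L] _ => f x) this

theorem coe_wB_alpha' {M Q N Q' ℓ : ℕ} [NeZero M] [NeZero Q] [NeZero N] [NeZero Q'] [NeZero ℓ]
    (h : M * Q = N) (hQM : Nat.Coprime Q M) (hQ' : Q' = Q * ℓ)
    (h' : M * Q' = N * ℓ) (hQM' : Nat.Coprime Q' M) (x : FB L N) :
    (wB L h' hQM' (heckeAlphaBar L N ℓ x) : LaurentSeries L) = qExpand L ℓ (wB L h hQM x) := by
  have : ((FB L (N * ℓ)).val.comp (wB L h' hQM' : FB L (N * ℓ) →ₐ[L] FB L (N * ℓ))).comp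
      (heckeAlphaBar L N ℓ) =
      (qExpandAlgHomC L ℓ).comp ((FB L N).val.comp (wB L h hQM : FB L N →ₐ[L] FB L N)) := by
    apply algHom_ext_FB
    intro d _ hd
    have hd' := hd
    rw [← h, mul_comm, Nat.dvd_mul] at hd'
    obtain ⟨d₁, d₂, h1, h2, rfl⟩ := hd'
    have e1 : heckeAlphaBar L N ℓ (jB L hd) = jB L (hd.mul_right ℓ) := Subtype.ext rfl
    haveI : NeZero (Q / d₁ * d₂) := ⟨mul_ne_zero
      (Nat.div_pos (Nat.le_of_dvd (NeZero.pos Q) h1) (Nat.pos_of_dvd_of_pos h1 (NeZero.pos Q))).ne'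
      (fun h0 => by rw [h0] at h2; exact NeZero.ne M (Nat.eq_zero_of_zero_dvd h2))⟩
    haveI : NeZero (ℓ * (Q / d₁ * d₂)) := ⟨mul_ne_zero (NeZero.ne _) (NeZero.ne _)⟩
    change (wB L h' hQM' (heckeAlphaBar L N ℓ (jB L hd)) : LaurentSeries L) =
      qExpand L ℓ (wB L h hQM (jB L hd) : LaurentSeries L)
    rw [e1, coe_wB_jd L h' hQM' (d₁ := d₁) (d₂ := d₂) (e := ℓ * (Q / d₁ * d₂))
      (by rw [hQ']; exact h1.mul_right ℓ) h2 rfl
      (by rw [hQ', mul_comm Q ℓ, Nat.mul_div_assoc ℓ h1, mul_assoc]),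
      coe_wB_jd L h hQM h1 h2 rfl rfl, Igusa.qExpand_jd]
  exact congrArg (fun f : FB L N →ₐ[L] _ => f x) this

theorem coe_wB_beta' {M Q N Q' ℓ : ℕ} [NeZero M] [NeZero Q] [NeZero N] [NeZero Q'] [NeZero ℓ]
    (h : M * Q = N) (hQM : Nat.Coprime Q M) (hQ' : Q' = Q * ℓ)
    (h' : M * Q' = N * ℓ) (hQM' : Nat.Coprime Q' M) (x : FB L N) :
    (wB L h' hQM' (heckeBetaBar L N ℓ x) : LaurentSeries L) = wB L h hQM x := by
  have : ((FB L (N * ℓ)).val.comp (wB L h' hQM' : FB L (N * ℓ) →ₐ[L] FB L (N * ℓ))).comp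
      (heckeBetaBar L N ℓ) = (FB L N).val.comp (wB L h hQM : FB L N →ₐ[L] FB L N) := by
    apply algHom_ext_FB
    intro d _ hd
    have hd' := hd
    rw [← h, mul_comm, Nat.dvd_mul] at hd'
    obtain ⟨d₁, d₂, h1, h2, rfl⟩ := hd'
    haveI : NeZero (ℓ * (d₁ * d₂)) := ⟨mul_ne_zero (NeZero.ne _) (NeZero.ne _)⟩
    have e1 : heckeBetaBar L N ℓ (jB L hd) =
        jB L (d := ℓ * (d₁ * d₂)) (mul_comm ℓ (d₁ * d₂) ▸ mul_dvd_mul_right hd ℓ) :=
      Subtype.ext (Igusa.qExpand_jd L ℓ (d₁ * d₂))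
    haveI : NeZero (Q / d₁ * d₂) := ⟨mul_ne_zero
      (Nat.div_pos (Nat.le_of_dvd (NeZero.pos Q) h1) (Nat.pos_of_dvd_of_pos h1 (NeZero.pos Q))).ne'
      (fun h0 => by rw [h0] at h2; exact NeZero.ne M (Nat.eq_zero_of_zero_dvd h2))⟩
    change (wB L h' hQM' (heckeBetaBar L N ℓ (jB L hd)) : LaurentSeries L) =
      (wB L h hQM (jB L hd) : LaurentSeries L)
    rw [e1, coe_wB_jd L h' hQM' (d₁ := ℓ * d₁) (d₂ := d₂) (e := Q / d₁ * d₂)
      (by rw [hQ', mul_comm Q]; exact mul_dvd_mul_left ℓ h1) h2 (by ring)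
      (by rw [hQ', mul_comm Q ℓ, Nat.mul_div_mul_left _ _ (NeZero.pos ℓ)]),
      coe_wB_jd L h hQM h1 h2 rfl rfl]
  exact congrArg (fun f : FB L N →ₐ[L] _ => f x) this

end Basic

section Hecke

variable (L : Type*) [Field L] [Algebra ℚ L] [Algebra.IsAlgebraic ℚ L] [IsAlgClosed L]

theorem wB_alpha_eq_beta (N ℓ : ℕ) [NeZero N] [NeZero ℓ] (h : Nat.Coprime ℓ N) (x : FB L N) :
    wB L (rfl : N * ℓ = N * ℓ) h (heckeAlphaBar L N ℓ x) = heckeBetaBar L N ℓ x := by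
  apply Subtype.ext
  have h0 : ((heckeAlphaBar L N ℓ x : FB L (N * ℓ)) : LaurentSeries L) ∈ FB L N := by
    rw [coe_heckeAlphaBar]
    exact x.2
  rw [coe_wB_of_mem L (rfl : N * ℓ = N * ℓ) h (heckeAlphaBar L N ℓ x) h0, coe_heckeAlphaBar,
    coe_heckeBetaBar]

/-- `w_ℓ` swaps the two degeneracy maps. -/
theorem beta_eq_comp (N ℓ : ℕ) [NeZero N] [NeZero ℓ] (h : Nat.Coprime ℓ N) :
    heckeBetaBar L N ℓ = (AlgEquiv.toAlgHom (wB L (rfl : N * ℓ = N * ℓ) h)).comp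
      (heckeAlphaBar L N ℓ) :=
  AlgHom.ext fun x => (wB_alpha_eq_beta L N ℓ h x).symm

theorem finrankAlong_beta (N ℓ : ℕ) [NeZero N] [hℓ : Fact ℓ.Prime] (h : ¬ ℓ ∣ N) :
    finrankAlong L (heckeBetaBar L N ℓ) = ℓ + 1 := by
  rw [beta_eq_comp L N ℓ ((Nat.Prime.coprime_iff_not_dvd hℓ.out).mpr h), finrankAlong_comp,
    finrankAlong_alpha L N ℓ h]

/-- **Hecke operators on cusps**: `T_ℓ(w_Q ∞) = (1 + ℓ) w_Q ∞` for `ℓ ∤ N`. -/
theorem heckeDivBar_cW {M Q N : ℕ} [NeZero M] [NeZero Q] [NeZero N] (ℓ : ℕ) [hℓ : Fact ℓ.Prime]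
    (hN : ¬ ℓ ∣ N) (h : M * Q = N) (hQM : Nat.Coprime Q M) (n : ℤ) :
    heckeDivBar (H05.heckeAlphaBarIntegral L N ℓ) (H05.heckeBetaBarIntegral L N ℓ)
      (Finsupp.single (cW L h hQM) n) = (1 + (ℓ : ℤ)) • Finsupp.single (cW L h hQM) n := by
  haveI : CharZero L := charZero_of_injective_algebraMap (algebraMap ℚ L).injective
  have hℓM : Nat.Coprime ℓ M := (Nat.Prime.coprime_iff_not_dvd hℓ.out).mpr
    fun hd => hN (h ▸ hd.mul_right Q)
  have hℓQ : Nat.Coprime ℓ Q := (Nat.Prime.coprime_iff_not_dvd hℓ.out).mpr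
    fun hd => hN (h ▸ hd.mul_left M)
  have h₁ : (M * ℓ) * Q = N * ℓ := by rw [← h]; ring
  have hc₁ : Nat.Coprime Q (M * ℓ) := Nat.Coprime.mul_right hQM hℓQ.symm
  have h₂ : M * (Q * ℓ) = N * ℓ := by rw [← h]; ring
  have hc₂ : Nat.Coprime (Q * ℓ) M := Nat.Coprime.mul_left hQM hℓM
  have hα₁ : ∀ f : FB L N, f ≠ 0 → (cW L h₁ hc₁).ord (heckeAlphaBar L N ℓ f) =
      1 * (cW L h hQM).ord f := fun f _ => by
    rw [cW_ord, cW_ord, coe_wB_alpha L h hQM rfl h₁ hc₁, one_mul]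
  have hα₂ : ∀ f : FB L N, f ≠ 0 → (cW L h₂ hc₂).ord (heckeAlphaBar L N ℓ f) =
      ℓ * (cW L h hQM).ord f := fun f _ => by
    rw [cW_ord, cW_ord, coe_wB_alpha' L h hQM rfl h₂ hc₂, order_qExpand']
  have hβ₁ : ∀ f : FB L N, f ≠ 0 → (cW L h₁ hc₁).ord (heckeBetaBar L N ℓ f) =
      ℓ * (cW L h hQM).ord f := fun f _ => by
    rw [cW_ord, cW_ord, coe_wB_beta L h hQM rfl h₁ hc₁, order_qExpand']
  have hβ₂ : ∀ f : FB L N, f ≠ 0 → (cW L h₂ hc₂).ord (heckeBetaBar L N ℓ f) =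
      1 * (cW L h hQM).ord f := fun f _ => by
    rw [cW_ord, cW_ord, coe_wB_beta' L h hQM rfl h₂ hc₂, one_mul]
  have hℓ1 := hℓ.out.one_lt
  have hne : cW L h₁ hc₁ ≠ cW L h₂ hc₂ := by
    intro heq
    obtain ⟨t, ht0, ht⟩ := H18.exists_ord_eq_one (cW L h hQM)
    have h1 := hα₁ t ht0
    have h2 := hα₂ t ht0
    rw [heq, h2, ht] at h1
    omega
  have hαI : (heckeAlphaBar L N ℓ).toRingHom.IsIntegral := H05.heckeAlphaBarIntegral L N ℓ
  have hβI : (heckeBetaBar L N ℓ).toRingHom.IsIntegral := H05.heckeBetaBarIntegral L N ℓ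
  have hFI : FundamentalIdentityAlong L (heckeBetaBar L N ℓ) hβI :=
    H05.fundamentalIdentityAlong_of _ _ (H05.finiteAlong_beta L N ℓ)
  have hp := pullbackAlong_single_pair (heckeBetaBar L N ℓ) hβI hFI
      (H05.deg_eq_one_bc L (N * ℓ)) (H05.deg_eq_one_bc L N) hne
      (by omega : (0 : ℤ) < ℓ) one_pos hβ₁ hβ₂
      (by rw [finrankAlong_beta L N ℓ hN]; push_cast; exact le_rfl) n
  have hq₁ := pushforwardAlong_single_of (H05.deg_eq_one_bc L (N * ℓ)) (heckeAlphaBar L N ℓ) hαI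
    one_pos hα₁ (n * ℓ)
  have hq₂ := pushforwardAlong_single_of (H05.deg_eq_one_bc L (N * ℓ)) (heckeAlphaBar L N ℓ) hαI
      (by omega : (0 : ℤ) < ℓ) hα₂ (n * 1)
  have hdef : heckeDivBar (H05.heckeAlphaBarIntegral L N ℓ) (H05.heckeBetaBarIntegral L N ℓ)
      (Finsupp.single (cW L h hQM) n) = Divisor.pushforwardAlong (heckeAlphaBar L N ℓ) hαI
        (Divisor.pullbackAlong (heckeBetaBar L N ℓ) hβI (Finsupp.single (cW L h hQM) n)) := rfl
  rw [hdef, hp, map_add, hq₁, hq₂, ← Finsupp.single_add, Finsupp.smul_single]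
  congr 1
  rw [smul_eq_mul]
  ring

/-- Hecke operator on a class of a divisor which is an eigenvector. -/
theorem heckeOperatorAlong_mk_of {N : ℕ} [NeZero N] (ℓ : ℕ) [NeZero ℓ]
    (D : Divisor.degZero (K := L) (F := FB L N)) (c : ℤ)
    (hD : heckeDivBar (H05.heckeAlphaBarIntegral L N ℓ) (H05.heckeBetaBarIntegral L N ℓ)
      (D : Divisor L (FB L N)) = c • (D : Divisor L (FB L N))) :
    heckeOperatorAlong L N ℓ (Pic0.mk D) = c • Pic0.mk D := by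
  haveI : CharZero L := charZero_of_injective_algebraMap (algebraMap ℚ L).injective
  have hαI : (heckeAlphaBar L N ℓ).toRingHom.IsIntegral := H05.heckeAlphaBarIntegral L N ℓ
  have hβI : (heckeBetaBar L N ℓ).toRingHom.IsIntegral := H05.heckeBetaBarIntegral L N ℓ
  have hFI : FundamentalIdentityAlong L (heckeBetaBar L N ℓ) hβI :=
    H05.fundamentalIdentityAlong_of _ _ (H05.finiteAlong_beta L N ℓ)
  have h1 := heckeOperatorAlong_eq (H05.heckeAlphaBarIntegral L N ℓ)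
    (H05.heckeBetaBarIntegral L N ℓ) hFI (H05.finiteAlong_alpha L N ℓ)
    (H05.normFormulaAlong_of _ _)
  have h2 : Pic0.degZeroCorrespondence (heckeBetaBar L N ℓ) (heckeAlphaBar L N ℓ) hβI hαI hFI D =
      c • D := Subtype.ext hD
  calc heckeOperatorAlong L N ℓ (Pic0.mk D) = heckePic0Bar (H05.heckeAlphaBarIntegral L N ℓ)
        (H05.heckeBetaBarIntegral L N ℓ) hFI (H05.finiteAlong_alpha L N ℓ)
        (H05.normFormulaAlong_of _ _) (Pic0.mk D) := by rw [h1]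
    _ = Pic0.mk (Pic0.degZeroCorrespondence (heckeBetaBar L N ℓ) (heckeAlphaBar L N ℓ)
        hβI hαI hFI D) := rfl
    _ = Pic0.mk (c • D) := by rw [h2]
    _ = c • Pic0.mk D := rfl

theorem mem_degZero_single_sub {N : ℕ} [NeZero N] (v w : Place L (FB L N)) :
    Finsupp.single v 1 - Finsupp.single w 1 ∈ Divisor.degZero (K := L) (F := FB L N) := by
  haveI : CharZero L := charZero_of_injective_algebraMap (algebraMap ℚ L).injective
  rw [Divisor.mem_degZero, map_sub, Divisor.degree_single, Divisor.degree_single,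
    H05.deg_eq_one_bc L N, H05.deg_eq_one_bc L N, sub_self]

/-- The class of `v - w`. -/
def cl {N : ℕ} [NeZero N] (v w : Place L (FB L N)) : Pic0 L (FB L N) :=
  Pic0.mk ⟨_, mem_degZero_single_sub L v w⟩

/-- The cuspidal class `[0] - [∞]`. -/
def cuspClass (N : ℕ) [NeZero N] : Pic0 L (FB L N) := cl L (cZero L N) (cInf L N)

theorem cInf_eq_cW (N : ℕ) [NeZero N] : cInf L N = cW L (mul_one N) (Nat.coprime_one_left N) := by
  apply place_ext
  intro f _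
  have h1 : (wB L (mul_one N) (Nat.coprime_one_left N) f : LaurentSeries L) = f := by
    rw [coe_wB_of_mem L (mul_one N) (Nat.coprime_one_left N) f f.2, qExpand_one_apply]
  rw [cW_ord, h1, cInf_ord]

/-- **`T_ℓ c = (1 + ℓ) c`.** -/
theorem heckeOperatorAlong_cuspClass (N ℓ : ℕ) [NeZero N] [hℓ : Fact ℓ.Prime] (h : ¬ ℓ ∣ N) :
    heckeOperatorAlong L N ℓ (cuspClass L N) = (1 + (ℓ : ℤ)) • cuspClass L N := by
  rw [cuspClass, cl]
  apply heckeOperatorAlong_mk_of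
  change heckeDivBar _ _ (Finsupp.single (cZero L N) 1 - Finsupp.single (cInf L N) 1) =
    _ • (Finsupp.single (cZero L N) 1 - Finsupp.single (cInf L N) 1)
  rw [map_sub, smul_sub, cInf_eq_cW, cZero, heckeDivBar_cW L ℓ h, heckeDivBar_cW L ℓ h]

end Hecke

end Fermat.Agent.M5
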