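import Fermat.Agent.M5.Along

/-!
# Cusps `∞` and `0` of the modular function field
-/

set_option autoImplicit false
set_option linter.style.haveILetI false
set_option linter.unusedSectionVars false
set_option maxSynthPendingDepth 3

noncomputable section

open AlgebraicCurve ModularCurve

namespace Fermat.Agent.M5

section Basic

variable (L : Type*) [Field L] [Algebra ℚ L]

/-- function field of `X₀(N)` over `L`. -/
abbrev FB (N : ℕ) : IntermediateField L (LaurentSeries L) :=
  laurentBaseChange L (modularFunctionFieldFull N)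

/-- the cusp `∞`: the place given by the `q`-order. -/
def cInf (N : ℕ) : Place L (FB L N) := (H05.exists_place_infinity_bc L N).choose

theorem cInf_ord (N : ℕ) (z : FB L N) : (cInf L N).ord z = (z : LaurentSeries L).order :=
  (H05.exists_place_infinity_bc L N).choose_spec z

theorem jd_mem_FB {N d : ℕ} [NeZero d] (hd : d ∣ N) : Igusa.jd L d ∈ FB L N := by
  rw [FB, H05.laurentBaseChange_full]
  exact Igusa.jd_mem_full hd

/-- `j(q^d)` as an element of the function field. -/
def jB {N d : ℕ} [NeZero d] (hd : d ∣ N) : FB L N := ⟨Igusa.jd L d, jd_mem_FB L hd⟩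

@[simp] theorem coe_jB {N d : ℕ} [NeZero d] (hd : d ∣ N) :
    ((jB L hd : FB L N) : LaurentSeries L) = Igusa.jd L d := rfl

theorem FB_mono {M N : ℕ} [NeZero M] [NeZero N] (h : M ∣ N) : FB L M ≤ FB L N := by
  rw [FB, FB, H05.laurentBaseChange_full, H05.laurentBaseChange_full]
  exact full_degeneracyC_le L h

theorem order_qExpand' (Q : ℕ) [NeZero Q] (x : LaurentSeries L) :
    (qExpand L Q x).order = Q * x.order := by
  by_cases hx : x = 0
  · subst hx
    simp
  · exact Igusa.order_qExpand Q hx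

theorem cInf_ord_jB {N d : ℕ} [NeZero d] (hd : d ∣ N) : (cInf L N).ord (jB L hd) = -(d : ℤ) := by
  rw [cInf_ord, coe_jB, Igusa.order_jd]

variable [Algebra.IsAlgebraic ℚ L]

theorem FB_eq_of {M Q N : ℕ} (h : M * Q = N) : FB L N = modularFunctionFieldFullC L (M * Q) := by
  rw [h]
  exact H05.laurentBaseChange_full L N

theorem coe_equivOfEq {F E : Type*} [Field F] [Field E] [Algebra F E]
    {S T : IntermediateField F E} (h : S = T) (x : S) :
    (IntermediateField.equivOfEq h x : E) = x := rfl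

theorem coe_equivOfEq_symm {F E : Type*} [Field F] [Field E] [Algebra F E]
    {S T : IntermediateField F E} (h : S = T) (x : T) :
    ((IntermediateField.equivOfEq h).symm x : E) = x := rfl

theorem exists_wB {M Q N : ℕ} [NeZero M] [NeZero Q] (h : M * Q = N) (hQM : Nat.Coprime Q M) :
    ∃ w : FB L N ≃ₐ[L] FB L N, ∀ (x : FB L N) (y : modularFunctionFieldFullC L (M * Q)),
      (x : LaurentSeries L) = y → (w x : LaurentSeries L) = Fermat.Agent.Q.wQ L hQM y := by
  refine ⟨(IntermediateField.equivOfEq (FB_eq_of L h)).trans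
    ((Fermat.Agent.Q.wQ L hQM).trans (IntermediateField.equivOfEq (FB_eq_of L h)).symm), ?_⟩
  intro x y hxy
  have h1 : IntermediateField.equivOfEq (FB_eq_of L h) x = y :=
    Subtype.ext ((coe_equivOfEq (FB_eq_of L h) x).trans hxy)
  rw [AlgEquiv.trans_apply, AlgEquiv.trans_apply, h1, coe_equivOfEq_symm]

/-- **The Atkin-Lehner involution** `w_Q` of the function field of `X₀(N)`, `N = M Q`. -/
def wB {M Q N : ℕ} [NeZero M] [NeZero Q] (h : M * Q = N) (hQM : Nat.Coprime Q M) :
    FB L N ≃ₐ[L] FB L N := (exists_wB L h hQM).choose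

theorem coe_wB' {M Q N : ℕ} [NeZero M] [NeZero Q] (h : M * Q = N) (hQM : Nat.Coprime Q M)
    (x : FB L N) (y : modularFunctionFieldFullC L (M * Q)) (hxy : (x : LaurentSeries L) = y) :
    (wB L h hQM x : LaurentSeries L) = Fermat.Agent.Q.wQ L hQM y :=
  (exists_wB L h hQM).choose_spec x y hxy

@[simp] theorem wB_wB {M Q N : ℕ} [NeZero M] [NeZero Q] (h : M * Q = N) (hQM : Nat.Coprime Q M)
    (x : FB L N) : wB L h hQM (wB L h hQM x) = x := by
  apply Subtype.ext
  have h1 := coe_equivOfEq (FB_eq_of L h) x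
  rw [coe_wB' L h hQM (wB L h hQM x) _ (coe_wB' L h hQM x _ h1.symm), Fermat.Agent.Q.wQ_wQ, h1]

/-- on functions of level `M`, `w_Q` is `q ↦ q^Q`. -/
theorem coe_wB_of_mem {M Q N : ℕ} [NeZero M] [NeZero Q] (h : M * Q = N)
    (hQM : Nat.Coprime Q M) (x : FB L N) (hx : (x : LaurentSeries L) ∈ FB L M) :
    (wB L h hQM x : LaurentSeries L) = qExpand L Q (x : LaurentSeries L) := by
  have hx' : (x : LaurentSeries L) ∈ modularFunctionFieldFullC L M := by
    rw [← H05.laurentBaseChange_full]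
    exact hx
  exact (coe_wB' L h hQM x ⟨(x : LaurentSeries L), Fermat.Agent.Q.mem_of_mem L _ hx'⟩ rfl).trans
    (Fermat.Agent.Q.coe_wQ_of_mem L hQM _ hx')

/-- `w_Q` maps `y(q^Q)` to `y`, for `y` of level `M`. -/
theorem coe_wB_of_eq {M Q N : ℕ} [NeZero M] [NeZero Q] (h : M * Q = N)
    (hQM : Nat.Coprime Q M) (x : FB L N) {y : LaurentSeries L} (hy : y ∈ FB L M)
    (hx : (x : LaurentSeries L) = qExpand L Q y) : (wB L h hQM x : LaurentSeries L) = y := by
  have hyN : y ∈ FB L N := by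
    rw [FB_eq_of L h]
    exact Fermat.Agent.Q.mem_of_mem L y (by rw [← H05.laurentBaseChange_full]; exact hy)
  have h1 := coe_wB_of_mem L h hQM ⟨y, hyN⟩ hy
  have h2 : x = wB L h hQM ⟨y, hyN⟩ := Subtype.ext (hx.trans h1.symm)
  rw [h2, wB_wB]

/-- The place `w_Q(∞)`. -/
def cW {M Q N : ℕ} [NeZero M] [NeZero Q] (h : M * Q = N) (hQM : Nat.Coprime Q M) :
    Place L (FB L N) := wB L h hQM • cInf L N

theorem cW_ord {M Q N : ℕ} [NeZero M] [NeZero Q] (h : M * Q = N) (hQM : Nat.Coprime Q M)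
    (z : FB L N) : (cW L h hQM).ord z = (wB L h hQM z : LaurentSeries L).order := by
  have := Place.ord_smul (wB L h hQM) (cInf L N) (wB L h hQM z)
  rw [wB_wB] at this
  rw [cW, this, cInf_ord]

theorem cW_ord_jB {M Q N : ℕ} [NeZero M] [NeZero Q] (h : M * Q = N) (hQM : Nat.Coprime Q M) :
    (cW L h hQM).ord (jB L (one_dvd N)) = -(Q : ℤ) := by
  rw [cW_ord, coe_wB_of_mem L h hQM _ (jd_mem_FB L (one_dvd M)), order_qExpand', coe_jB,
    Igusa.order_jd]
  simp

theorem one_mul_coprime (N : ℕ) : Nat.Coprime N 1 := Nat.coprime_one_right N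

/-- The cusp `0` of `X₀(N)`. -/
def cZero (N : ℕ) [NeZero N] : Place L (FB L N) :=
  cW L (one_mul N) (Nat.coprime_one_right N)

/-- The Fricke involution. -/
def wN (N : ℕ) [NeZero N] : FB L N ≃ₐ[L] FB L N :=
  wB L (one_mul N) (Nat.coprime_one_right N)

theorem cZero_ord (N : ℕ) [NeZero N] (z : FB L N) :
    (cZero L N).ord z = (wN L N z : LaurentSeries L).order := cW_ord L _ _ z

theorem cZero_ord_jB (N : ℕ) [NeZero N] :
    (cZero L N).ord (jB L (one_dvd N)) = -(N : ℤ) := cW_ord_jB L _ _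

theorem cZero_ord_jB' (N : ℕ) [NeZero N] :
    (cZero L N).ord (jB L (dvd_refl N)) = -1 := by
  rw [cZero_ord, wN, coe_wB_of_eq L (one_mul N) (Nat.coprime_one_right N) (jB L (dvd_refl N))
    (y := Igusa.jd L 1) (jd_mem_FB L (dvd_refl 1))
    (by rw [coe_jB, Igusa.qExpand_jd]; exact Igusa.jd_congr L (by simp)), Igusa.order_jd]
  simp

end Basic

section Degree

variable (L : Type*) [Field L] [Algebra ℚ L]

theorem finrankAlong_alpha (N ℓ : ℕ) [NeZero N] [hℓ : Fact ℓ.Prime] (h : ¬ ℓ ∣ N) :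
    finrankAlong L (heckeAlphaBar L N ℓ) = ℓ + 1 := by
  haveI : CharZero L := charZero_of_injective_algebraMap (algebraMap ℚ L).injective
  haveI : NeZero (N * ℓ) := ⟨mul_ne_zero (NeZero.ne N) hℓ.out.ne_zero⟩
  have h1 := Igusa.relrank_prime_step (k := L) ℓ N (by exact_mod_cast NeZero.ne (N * ℓ))
    (Igusa.relrank_full N (by exact_mod_cast NeZero.ne N))
  rw [if_neg h, ← H05.laurentBaseChange_full, ← H05.laurentBaseChange_full,
    IntermediateField.relrank_eq_rank_of_le (FB_mono L (dvd_mul_right N ℓ))] at h1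
  have h2 : Module.finrank (FB L N)
      (IntermediateField.extendScalars (FB_mono L (dvd_mul_right N ℓ))) = ℓ + 1 := by
    rw [Module.finrank, h1, Cardinal.toNat_natCast]
  rw [← h2]
  unfold finrankAlong
  refine @LinearEquiv.finrank_eq (FB L N) (FB L (N * ℓ))
    (IntermediateField.extendScalars (FB_mono L (dvd_mul_right N ℓ))) _ _
    (algebraAlong (heckeAlphaBar L N ℓ)).toModule _ _ ?_
  exact
    @LinearEquiv.mk (FB L N) (FB L N) _ _ (RingHom.id _) (RingHom.id _) _ _ (FB L (N * ℓ))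
      (IntermediateField.extendScalars (FB_mono L (dvd_mul_right N ℓ))) _ _
      (algebraAlong (heckeAlphaBar L N ℓ)).toModule _
      (@LinearMap.mk (FB L N) (FB L N) _ _ (RingHom.id _) (FB L (N * ℓ))
      (IntermediateField.extendScalars (FB_mono L (dvd_mul_right N ℓ))) _ _
      (algebraAlong (heckeAlphaBar L N ℓ)).toModule _
      ⟨fun x => ⟨x.1, x.2⟩, fun x y => rfl⟩ (fun a x => rfl)) (fun x => ⟨x.1, x.2⟩) (fun x => rfl)
      (fun x => rfl)

end Degree

end Fermat.Agent.M5
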