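import Fermat.Agent.M5.Rho
import Fermat.Agent.Igusa.Orders
import Fermat.Agent.Q.Val
import Fermat.Agent.H05_Frob
import Fermat.Agent.H08.RankOne

/-!
# The order of the cuspidal class
-/

set_option autoImplicit false
set_option linter.style.haveILetI false
set_option linter.unusedSectionVars false
set_option maxSynthPendingDepth 3

noncomputable section

open AlgebraicCurve ModularCurve HahnSeries

namespace Fermat.Agent.M5

section

variable (L : Type*) [Field L] [Algebra ℚ L] [IsAlgClosed L] [Algebra.IsAlgebraic ℚ L]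

theorem FB_le_FL (A : ValuationSubring L) {N : ℕ} {x : LaurentSeries L} (hx : x ∈ FB L N) :
    x ∈ Q.FL A := by
  refine H18.laurentBaseChange_le (N := N) (S := Q.FL A) ?_ ?_ hx
  · intro c
    rw [algebraMap_laurentSeries_eq_single]
    exact Q.C_mem_FL c
  · intro d _ _
    apply Q.DD_le_FL
    refine ⟨Q.intL_le_bddL ⟨Igusa.jd A d, Igusa.coeffMap_jd A.subtype d⟩, ?_⟩
    have h1 : coeffEmb L (Igusa.jd ℚ d) = Igusa.jd L d := Igusa.coeffMap_jd (algebraMap ℚ L) d
    change Igusa.jd L d ∈ Q.finL L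
    rw [← h1]
    exact Q.coeffEmb_mem_finL _

/-- The `q`-expansion of the modular unit over any ring. -/
def uR (R : Type*) [CommRing R] (N : ℕ) [NeZero N] : LaurentSeries R :=
  Igusa.dS R * qExpand R N (Igusa.dSinv R)

theorem coeffMap_uR {R S : Type*} [CommRing R] [CommRing S] (f : R →+* S) (N : ℕ) [NeZero N] :
    coeffMap f (uR R N) = uR S N := by
  rw [uR, uR, map_mul, H01.coeffMap_qExpand, Igusa.coeffMap_dS, Igusa.coeffMap_dSinv]

theorem uR_rat (N : ℕ) [NeZero N] : uR ℚ N = modularUnitSeries N := by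
  have h1 : Igusa.dS ℚ = deltaSeries := rfl
  have h2 : qExpand ℚ N (Igusa.dSinv ℚ) * deltaSeriesN N = 1 := by
    rw [deltaSeriesN, ← h1, ← map_mul, mul_comm, Igusa.dS_mul_dSinv, map_one]
  have h3 := modularUnitSeries_mul_deltaSeriesN N
  have h4 : uR ℚ N * deltaSeriesN N = deltaSeries := by
    rw [uR, mul_assoc, h2, mul_one, h1]
  exact mul_right_cancel₀ (deltaSeriesN_ne_zero N) (h4.trans h3.symm)

theorem unit_mem_intL (A : ValuationSubring L) (N : ℕ) [NeZero N] :
    coeffEmb L (modularUnitSeries N) ∈ Q.intL A := by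
  rw [← uR_rat, coeffEmb, coeffMap_uR]
  exact ⟨uR A N, coeffMap_uR A.subtype N⟩

/-- `(N - 1) c = 0`. -/
theorem sub_one_smul_cuspClass {N : ℕ} [NeZero N] (hN : N.Prime) :
    ((N : ℤ) - 1) • cuspClass L N = 0 := by
  have h1 : ((N : ℤ) - 1) • cuspClass L N = Pic0.mk (((N : ℤ) - 1) •
    ⟨_, mem_degZero_single_sub L (cZero L N) (cInf L N)⟩) := rfl
  rw [h1]
  refine (QuotientAddGroup.eq_zero_iff _).mpr ?_
  rw [AddSubgroup.mem_addSubgroupOf]
  exact ⟨uB L N, uB_ne_zero L N, fun v => (ord_uB L hN v).symm⟩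

/-- If `m c = 0`, then `m ([0] - [∞])` is principal. -/
theorem isPrincipal_of_smul_cuspClass {N : ℕ} [NeZero N] {m : ℤ}
    (h : m • cuspClass L N = 0) :
    ∃ f : FB L N, f ≠ 0 ∧ ∀ v, (m • (Finsupp.single (cZero L N) 1 -
      Finsupp.single (cInf L N) 1) : Divisor L (FB L N)) v = v.ord f := by
  have h1 : m • cuspClass L N = Pic0.mk (m •
    ⟨_, mem_degZero_single_sub L (cZero L N) (cInf L N)⟩) := rfl
  rw [h1] at h
  have h2 := (QuotientAddGroup.eq_zero_iff _).mp h
  rw [AddSubgroup.mem_addSubgroupOf] at h2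
  exact h2

/-- A function without zeros and poles is constant. -/
theorem exists_const {N : ℕ} [NeZero N] {f : FB L N} (hf : f ≠ 0)
    (h : ∀ v : Place L (FB L N), v.ord f = 0) :
    ∃ c : L, c ≠ 0 ∧ f = algebraMap L (FB L N) c := by
  haveI : CharZero L := charZero_of_injective_algebraMap (algebraMap ℚ L).injective
  obtain ⟨c, hc⟩ := FF.mem_range_of_forall_le (K := L) (f := f) (fun v => by
    rw [v.adicValuation_le_one_iff]
    exact Or.inr (h v).ge)
  refine ⟨c, ?_, hc.symm⟩
  rintro rfl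
  rw [map_zero] at hc
  exact hf hc.symm

theorem exists_root {N : ℕ} [NeZero N] (hN : N.Prime) {m : ℤ} (hm : m • cuspClass L N = 0)
    {s t : ℕ} (hst : N - 1 = s * t) (hcop : IsCoprime m (s : ℤ)) :
    ∃ g : FB L N, g ^ s = uB L N := by
  obtain ⟨f, hf0, hf⟩ := isPrincipal_of_smul_cuspClass L hm
  obtain ⟨a, b, hab⟩ := hcop
  have hN1 : ((N : ℤ) - 1) = s * t := by
    have := hN.one_le
    have h2 : ((N - 1 : ℕ) : ℤ) = (s : ℤ) * t := by rw [hst]; push_cast; rfl
    rw [Nat.cast_sub this] at h2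
    exact_mod_cast h2
  have hs0 : s ≠ 0 := by
    rintro rfl
    rw [zero_mul] at hst
    have := hN.two_le
    omega
  set D : Divisor L (FB L N) := Finsupp.single (cZero L N) 1 - Finsupp.single (cInf L N) 1 with hD
  have hu0 := uB_ne_zero L N
  let g₀ : FB L N := f ^ ((t : ℤ) * a) * uB L N ^ b
  have hg₀ : g₀ ≠ 0 := mul_ne_zero (zpow_ne_zero _ hf0) (zpow_ne_zero _ hu0)
  have hord : ∀ v : Place L (FB L N), v.ord g₀ = t * D v := by
    intro v
    have h1 := hf v
    have h2 := ord_uB L hN v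
    rw [Finsupp.smul_apply, smul_eq_mul] at h1
    rw [Finsupp.smul_apply, smul_eq_mul, hN1] at h2
    rw [v.ord_mul (zpow_ne_zero _ hf0) (zpow_ne_zero _ hu0), v.ord_zpow, v.ord_zpow, ← h1, h2]
    linear_combination ((t : ℤ) * D v) * hab
  have hgs : g₀ ^ s ≠ 0 := pow_ne_zero _ hg₀
  obtain ⟨c, hc0, hc⟩ := exists_const L (f := uB L N / g₀ ^ s) (div_ne_zero hu0 hgs) (by
    intro v
    rw [div_eq_mul_inv, v.ord_mul hu0 (inv_ne_zero hgs), v.ord_inv, H18.ord_pow, hord,
      ord_uB L hN v, Finsupp.smul_apply, smul_eq_mul, hN1]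
    ring)
  obtain ⟨d, hd⟩ := IsAlgClosed.exists_pow_nat_eq c (Nat.pos_of_ne_zero hs0)
  refine ⟨algebraMap L (FB L N) d * g₀, ?_⟩
  rw [mul_pow, ← map_pow, hd, ← hc, div_mul_cancel₀ _ hgs]

/-- **Key lemma**: an `s`-th root of the modular unit forces `24/s` to be integral. -/
theorem div_mem_of_root {N : ℕ} [NeZero N] (hN : N.Prime) {s : ℕ} (hs : s ≠ 0) {g : FB L N}
    (hg : g ^ s = uB L N) {r : ℕ} (hr : r.Prime) (A : ValuationSubring L)
    (hA : A.LiesOverPrime r) : (24 / s : L) ∈ A := by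
  haveI : CharZero L := charZero_of_injective_algebraMap (algebraMap ℚ L).injective
  haveI := H08.mulArchimedean_valueGroup hr hA
  have hg' : (g : LaurentSeries L) ^ s = coeffEmb L (modularUnitSeries N) :=
    congrArg Subtype.val hg
  have hg0 : (g : LaurentSeries L) ≠ 0 := by
    intro h
    rw [h, zero_pow hs] at hg'
    exact coeffEmb_unit_ne_zero L N hg'.symm
  have hu := unit_mem_intL L A N
  have hint : (g : LaurentSeries L) ∈ Q.intL A := by
    apply Q.mem_intL_of_isIntegral (FB_le_FL L A g.2)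
    refine IsIntegral.of_pow (Nat.pos_of_ne_zero hs) ?_
    rw [hg']
    exact isIntegral_algebraMap (R := Q.intL A) (x := ⟨_, hu⟩)
  have hcoef := Q.mem_intL.mp hint
  have hrho := congrArg rho2 hg'
  rw [rho2_pow hg0, coeffEmb, rho2_coeffMap, rho2_unit hN.one_lt] at hrho
  -- leading coefficient
  have hlead : (g : LaurentSeries L).coeff (g : LaurentSeries L).order ^ s = 1 := by
    have h1 := congrArg HahnSeries.leadingCoeff hg'
    rw [coeffEmb, H26.leadingCoeff_coeffMap, (isMonicOfOrder_modularUnitSeries N).2,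
      map_one] at h1
    have h2 : ∀ n : ℕ, ((g : LaurentSeries L) ^ n).leadingCoeff =
        (g : LaurentSeries L).leadingCoeff ^ n := by
      intro n
      induction n with
      | zero => rw [pow_zero, pow_zero]; exact HahnSeries.leadingCoeff_one
      | succ n ih => rw [pow_succ, H26.laurent_leadingCoeff_mul, ih, pow_succ]
    rw [h2, HahnSeries.leadingCoeff_eq] at h1
    exact h1
  set c₀ := (g : LaurentSeries L).coeff (g : LaurentSeries L).order with hc₀
  have hc₀0 : c₀ ≠ 0 := by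
    intro h
    rw [h, zero_pow hs] at hlead
    exact zero_ne_one hlead
  have hinv : c₀⁻¹ ∈ A := by
    have : c₀⁻¹ = c₀ ^ (s - 1) := by
      symm
      apply eq_inv_of_mul_eq_one_left
      rw [← pow_succ, Nat.sub_add_cancel (Nat.pos_of_ne_zero hs), hlead]
    rw [this]
    exact pow_mem (hcoef _) _
  have hrhomem : rho2 (g : LaurentSeries L) ∈ A := by
    rw [rho2, div_eq_mul_inv]
    exact mul_mem (hcoef _) hinv
  have hsL : (s : L) ≠ 0 := by exact_mod_cast hs
  have : (24 / s : L) = - rho2 (g : LaurentSeries L) := by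
    rw [div_eq_iff hsL]
    have h3 : (algebraMap ℚ L) (-24) = -24 := by simp
    rw [h3] at hrho
    linear_combination hrho
  rw [this]
  exact neg_mem hrhomem

end

end Fermat.Agent.M5
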