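import Fermat.Agent.M5.Unit

/-!
# The second coefficient of a Laurent series
-/

set_option autoImplicit false
set_option linter.style.haveILetI false
set_option linter.unusedSectionVars false
set_option maxSynthPendingDepth 3

noncomputable section

open AlgebraicCurve ModularCurve HahnSeries

namespace Fermat.Agent.M5

section Rho

variable {K : Type*} [Field K]

/-- the quotient of the first two coefficients of a Laurent series -/
def rho2 (x : LaurentSeries K) : K := x.coeff (x.order + 1) / x.coeff x.order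

theorem coeff_smo (m : ℤ) (P : PowerSeries K) (n : ℕ) :
    (HahnSeries.single m (1 : K) * HahnSeries.ofPowerSeries ℤ K P).coeff (m + n) =
      PowerSeries.coeff n P := by
  rw [HahnSeries.coeff_single_mul, one_mul, add_sub_cancel_left,
    HahnSeries.ofPowerSeries_apply_coeff]

theorem order_smo (m : ℤ) (P : PowerSeries K) (hP : PowerSeries.coeff 0 P ≠ 0) :
    (HahnSeries.single m (1 : K) * HahnSeries.ofPowerSeries ℤ K P).order = m := by
  have h0 : (HahnSeries.single m (1 : K) * HahnSeries.ofPowerSeries ℤ K P).coeff m ≠ 0 := by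
    have := coeff_smo m P 0
    rw [Nat.cast_zero, add_zero] at this
    rw [this]
    exact hP
  have hne : HahnSeries.single m (1 : K) * HahnSeries.ofPowerSeries ℤ K P ≠ 0 := by
    intro h
    rw [h] at h0
    exact h0 rfl
  apply le_antisymm
  · exact HahnSeries.order_le_of_coeff_ne_zero h0
  · rw [HahnSeries.le_order_iff_forall hne]
    intro j hj
    rw [HahnSeries.coeff_single_mul, one_mul]
    exact ofPowerSeries_coeff_of_neg P (by omega)

theorem rho2_smo (m : ℤ) (P : PowerSeries K) (hP : PowerSeries.coeff 0 P ≠ 0) :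
    rho2 (HahnSeries.single m (1 : K) * HahnSeries.ofPowerSeries ℤ K P) =
      PowerSeries.coeff 1 P / PowerSeries.coeff 0 P := by
  have h0 := coeff_smo m P 0
  have h1 := coeff_smo m P 1
  rw [Nat.cast_zero, add_zero] at h0
  rw [Nat.cast_one] at h1
  rw [rho2, order_smo m P hP, h0, h1]

theorem exists_smo {x : LaurentSeries K} (hx : x ≠ 0) : ∃ (m : ℤ) (P : PowerSeries K),
    PowerSeries.coeff 0 P ≠ 0 ∧ x = HahnSeries.single m (1 : K) * HahnSeries.ofPowerSeries ℤ K P :=
  ⟨x.order, x.powerSeriesPart, by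
    rw [LaurentSeries.powerSeriesPart_coeff]
    simpa [HahnSeries.coeff_order_eq_zero] using hx, (x.single_order_mul_powerSeriesPart).symm⟩

theorem rho2_mul {x y : LaurentSeries K} (hx : x ≠ 0) (hy : y ≠ 0) :
    rho2 (x * y) = rho2 x + rho2 y := by
  obtain ⟨m, P, hP, rfl⟩ := exists_smo hx
  obtain ⟨n, Q, hQ, rfl⟩ := exists_smo hy
  have h1 : HahnSeries.single m (1 : K) * HahnSeries.ofPowerSeries ℤ K P *
      (HahnSeries.single n (1 : K) * HahnSeries.ofPowerSeries ℤ K Q) =
      HahnSeries.single (m + n) (1 : K) * HahnSeries.ofPowerSeries ℤ K (P * Q) := by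
    have h2 : HahnSeries.single (m + n) (1 : K) =
        HahnSeries.single m (1 : K) * HahnSeries.single n (1 : K) := by
      rw [HahnSeries.single_mul_single, one_mul]
    rw [h2, map_mul]
    ring
  have h0 : PowerSeries.coeff 0 (P * Q) = PowerSeries.coeff 0 P * PowerSeries.coeff 0 Q := by
    rw [PowerSeries.coeff_mul]
    simp
  have h3 : PowerSeries.coeff 1 (P * Q) = PowerSeries.coeff 0 P * PowerSeries.coeff 1 Q +
      PowerSeries.coeff 1 P * PowerSeries.coeff 0 Q := by
    rw [PowerSeries.coeff_mul, Finset.Nat.sum_antidiagonal_eq_sum_range_succ_mk]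
    simp [Finset.sum_range_succ]
  rw [h1, rho2_smo m P hP, rho2_smo n Q hQ, rho2_smo _ _ (by rw [h0]; exact mul_ne_zero hP hQ),
    h0, h3]
  field_simp
  ring

theorem rho2_one : rho2 (1 : LaurentSeries K) = 0 := by
  have h := rho2_mul (one_ne_zero (α := LaurentSeries K)) one_ne_zero
  rw [mul_one] at h
  exact (left_eq_add.mp h)

theorem rho2_pow {x : LaurentSeries K} (hx : x ≠ 0) (n : ℕ) : rho2 (x ^ n) = n * rho2 x := by
  induction n with
  | zero => rw [pow_zero, rho2_one]; simp
  | succ n ih =>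
    rw [pow_succ, rho2_mul (pow_ne_zero n hx) hx, ih]
    push_cast
    ring

theorem rho2_coeffMap {L : Type*} [Field L] (σ : K →+* L) (x : LaurentSeries K) :
    rho2 (coeffMap σ x) = σ (rho2 x) := by
  rw [rho2, rho2, H26.order_coeffMap, coeffMap_coeff, coeffMap_coeff, map_div₀]

theorem rho2_qExpand {N : ℕ} [NeZero N] (hN : 1 < N) (x : LaurentSeries K) :
    rho2 (qExpand K N x) = 0 := by
  have ho : (qExpand K N x).order = N * x.order := by
    by_cases hx : x = 0
    · subst hx
      simp
    · exact Igusa.order_qExpand N hx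
  rw [rho2, ho, qExpand_coeff_of_not_dvd, zero_div]
  intro h
  have h1 : (N : ℤ) ∣ 1 := by
    have := (Int.dvd_add_right (Dvd.intro x.order rfl)).mp h
    exact this
  have h2 : N ∣ 1 := by exact_mod_cast h1
  rw [Nat.dvd_one] at h2
  omega

end Rho

section Delta

open PowerSeries in
theorem coeff_one_etaProd : PowerSeries.coeff 1 etaProd = -1 := by
  rw [H01.etaProd_eq]
  have := coeff_pentagonalSeries_pentagonal ℤ 1
  have h2 : pentagonal 1 = 1 := by decide
  rw [h2] at this
  rw [this]
  simp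

theorem coeff_zero_etaProd : PowerSeries.coeff 0 etaProd = 1 := by
  rw [PowerSeries.coeff_zero_eq_constantCoeff, constantCoeff_etaProd]

theorem rho2_deltaSeries : rho2 deltaSeries = -24 := by
  have h1 : deltaSeries = HahnSeries.single (1 : ℤ) 1 *
      (HahnSeries.ofPowerSeries ℤ ℚ (etaProd.map (Int.castRingHom ℚ))) ^ 24 := by
    rw [deltaSeries, dedekindEtaUnitQ, dedekindEtaUnit, map_pow, map_pow]
  have h2 : (HahnSeries.single (1 : ℤ) (1 : ℚ) : LaurentSeries ℚ) =
      HahnSeries.single (1 : ℤ) (1 : ℚ) * HahnSeries.ofPowerSeries ℤ ℚ 1 := by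
    simp
  have h3 : rho2 (HahnSeries.single (1 : ℤ) (1 : ℚ) : LaurentSeries ℚ) = 0 := by
    rw [h2, rho2_smo _ _ (by simp)]
    simp
  have h5 : PowerSeries.coeff 0 (etaProd.map (Int.castRingHom ℚ)) = 1 := by
    rw [PowerSeries.coeff_map, coeff_zero_etaProd, map_one]
  have h6 : PowerSeries.coeff 1 (etaProd.map (Int.castRingHom ℚ)) = -1 := by
    rw [PowerSeries.coeff_map, coeff_one_etaProd, map_neg, map_one]
  have h7 : HahnSeries.ofPowerSeries ℤ ℚ (etaProd.map (Int.castRingHom ℚ)) =
      HahnSeries.single (0 : ℤ) (1 : ℚ) *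
        HahnSeries.ofPowerSeries ℤ ℚ (etaProd.map (Int.castRingHom ℚ)) := by
    have h8 : (HahnSeries.single (0 : ℤ) (1 : ℚ) : LaurentSeries ℚ) = 1 := rfl
    rw [h8, one_mul]
  have h4 : rho2 (HahnSeries.ofPowerSeries ℤ ℚ (etaProd.map (Int.castRingHom ℚ))) = -1 := by
    rw [h7, rho2_smo _ _ (by rw [h5]; exact one_ne_zero), h5, h6, div_one]
  have hne : HahnSeries.ofPowerSeries ℤ ℚ (etaProd.map (Int.castRingHom ℚ)) ≠ 0 := by
    intro h
    rw [h, rho2] at h4
    simp at h4
  rw [h1, rho2_mul (by simp) (pow_ne_zero 24 hne), h3, rho2_pow hne, h4]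
  norm_num

theorem rho2_unit {N : ℕ} [NeZero N] (hN : 1 < N) : rho2 (modularUnitSeries N) = -24 := by
  have h1 := modularUnitSeries_mul_deltaSeriesN N
  have h2 := rho2_mul (modularUnitSeries_ne_zero N) (deltaSeriesN_ne_zero N)
  rw [h1, rho2_deltaSeries, deltaSeriesN, rho2_qExpand hN, add_zero] at h2
  exact h2.symm

end Delta

end Fermat.Agent.M5
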