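import Fermat.Agent.M5.CuspCases
import Fermat.Agent.H02_P6
import Fermat.Prelude.Def_ModularCurve_ModularUnit

/-!
# The modular unit `Δ(z)/Δ(Nz)`
-/

set_option autoImplicit false
set_option linter.style.haveILetI false
set_option linter.unusedSectionVars false
set_option maxSynthPendingDepth 3

noncomputable section

open AlgebraicCurve ModularCurve

namespace Fermat.Agent.M5

section Complex

open Fermat.Agent.H01 (IsMF mfq MFRep qLf vz ordPt ordAt)
open Fermat.Agent.H02 (FC FC_eq_mfq)
open UpperHalfPlane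

theorem qLf_discriminant : qLf ModularForm.discriminant = coeffEmb ℂ deltaSeries := by
  rw [deltaSeries, coeffEmb, map_mul, coeffMap_single, map_one, H01.coeffMap_ofPowerSeries, qLf,
    H01.qExpansion_discriminant, map_mul, HahnSeries.ofPowerSeries_X, dedekindEtaUnitQ]
  congr 2

theorem qLf_vz_discriminant (N : ℕ) [NeZero N] :
    qLf (vz N ModularForm.discriminant) = coeffEmb ℂ (deltaSeriesN N) := by
  rw [IsMF.qLf_vz (IsMF.discriminant 1), qLf_discriminant, deltaSeriesN]
  exact (H01.coeffMap_qExpand (algebraMap ℚ ℂ) N deltaSeries).symm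

theorem vz_discriminant_ne_zero (N : ℕ) [NeZero N] (τ : ℍ) :
    vz N ModularForm.discriminant τ ≠ 0 := by
  rw [H01.vz]
  exact ModularForm.discriminant_ne_zero _

theorem rep_unit (N : ℕ) [NeZero N] :
    MFRep N (coeffEmb ℂ (modularUnitSeries N)) 12 ModularForm.discriminant
      (vz N ModularForm.discriminant) where
  hf := IsMF.discriminant N
  hg := by
    have := IsMF.vz (IsMF.discriminant 1) (d := N) (NeZero.pos N)
    rwa [one_mul] at this
  hf0 := H01.discriminant_fun_ne_zero
  hg0 := fun h => vz_discriminant_ne_zero N I (congrFun h I)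
  eq := by
    rw [qLf_vz_discriminant, qLf_discriminant, ← map_mul, modularUnitSeries_mul_deltaSeriesN]

theorem val_unit (N : ℕ) [NeZero N] (τ : ℍ) :
    (ordPt N τ).val (coeffEmb ℂ (modularUnitSeries N)) = 0 := by
  rw [(ordPt N τ).val_eq (rep_unit N)]
  change (ordAt τ ModularForm.discriminant : ℤ) - (ordAt τ (vz N ModularForm.discriminant) : ℤ) = 0
  rw [H02.ordAt_eq_zero (rep_unit N).hf.mdiff (ModularForm.discriminant_ne_zero τ),
    H02.ordAt_eq_zero (rep_unit N).hg.mdiff (vz_discriminant_ne_zero N τ)]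
  simp

theorem unit_mem_FC (N : ℕ) [NeZero N] :
    coeffEmb ℂ (modularUnitSeries N) ∈ FC N := by
  rw [FC_eq_mfq, H01.mem_mfq']
  exact ⟨12, _, _, (rep_unit N).hf, (rep_unit N).hg, (rep_unit N).hg0, (rep_unit N).eq⟩

theorem coeffEmb_unit_ne_zero (L : Type*) [Field L] [Algebra ℚ L] (N : ℕ) [NeZero N] :
    coeffEmb L (modularUnitSeries N) ≠ 0 :=
  (map_ne_zero _).mpr (modularUnitSeries_ne_zero N)

/-- Over `ℂ`, the unit has zeros and poles only at the poles of `j`. -/
theorem ord_unit_complex (N : ℕ) [NeZero N] (w : Place ℂ (FC N))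
    (hw : 0 ≤ w.ord (H02.jC N)) :
    w.ord (⟨coeffEmb ℂ (modularUnitSeries N), unit_mem_FC N⟩ : FC N) = 0 := by
  have hu0 : (⟨coeffEmb ℂ (modularUnitSeries N), unit_mem_FC N⟩ : FC N) ≠ 0 := fun h =>
    coeffEmb_unit_ne_zero ℂ N (congrArg Subtype.val h)
  rcases H02.place_cases w with ⟨τ, e, he, h⟩ | ⟨σ, e, he, h⟩
  · have h1 := h _ hu0
    rw [val_unit N τ] at h1
    rcases mul_eq_zero.mp h1.symm with h2 | h2
    · omega
    · exact h2
  · exfalso
    have h1 := h (H02.yC N 0) (H02.yC_ne_zero 0)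
    rw [H02.val_cusp_yC] at h1
    have h2 : H02.yC N 0 = H02.jC N := by
      rw [H02.yC, map_zero, sub_zero]
    rw [h2] at h1
    have := NeZero.pos N
    have h3 : 0 ≤ e * w.ord (H02.jC N) := by positivity
    omega

end Complex

section Descend

variable (L : Type*) [Field L] [Algebra ℚ L]

theorem exists_unit_rat (N : ℕ) [NeZero N] :
    ∃ z : laurentBaseChange ℚ (modularFunctionFieldFull N),
      (z : LaurentSeries ℚ) = modularUnitSeries N := by
  obtain ⟨z₀, hz₀⟩ := H26.exists_embBC_of_coeff_mem (K := ℚ) (L := ℂ)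
    (⟨coeffEmb ℂ (modularUnitSeries N), unit_mem_FC N⟩ :
      laurentBaseChange ℂ (modularFunctionFieldFull N)) (fun n => ⟨_, rfl⟩)
  refine ⟨z₀, ?_⟩
  have h1 := congrArg Subtype.val hz₀
  rw [H26.coe_embBC] at h1
  ext n
  have h2 := congrArg (fun s => HahnSeries.coeff s n) h1
  exact (algebraMap ℚ ℂ).injective h2

theorem coeffEmb_unit_mem (N : ℕ) [NeZero N] : coeffEmb L (modularUnitSeries N) ∈ FB L N := by
  obtain ⟨z, hz⟩ := exists_unit_rat N
  have h1 := (H26.embBC (K := ℚ) L (modularFunctionFieldFull N) z).2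
  rw [H26.coe_embBC, hz] at h1
  exact h1

/-- The modular unit `Δ(z)/Δ(Nz)`. -/
def uB (N : ℕ) [NeZero N] : FB L N := ⟨coeffEmb L (modularUnitSeries N), coeffEmb_unit_mem L N⟩

@[simp] theorem coe_uB (N : ℕ) [NeZero N] :
    (uB L N : LaurentSeries L) = coeffEmb L (modularUnitSeries N) := rfl

theorem uB_ne_zero (N : ℕ) [NeZero N] : uB L N ≠ 0 := fun h =>
  coeffEmb_unit_ne_zero L N (congrArg Subtype.val h)

theorem cInf_ord_uB (N : ℕ) [NeZero N] : (cInf L N).ord (uB L N) = 1 - (N : ℤ) := by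
  rw [cInf_ord, coe_uB, coeffEmb, H26.order_coeffMap, order_modularUnitSeries]

variable [IsAlgClosed L] [Algebra.IsAlgebraic ℚ L]

theorem ord_uB_eq_zero (N : ℕ) [NeZero N] (v : Place L (FB L N))
    (hv : 0 ≤ v.ord (jB L (one_dvd N))) : v.ord (uB L N) = 0 := by
  obtain ⟨inst⟩ := nonempty_algebra_complex L
  obtain ⟨w, hw⟩ := H26.exists_place_lift_BC (L := ℂ) v (H05.deg_eq_one_bc L N v)
  have hsub : (algebraMap L ℂ).comp (algebraMap ℚ L) = algebraMap ℚ ℂ := Subsingleton.elim _ _
  have h1 : H26.embBC ℂ (modularFunctionFieldFull N) (jB L (one_dvd N)) = H02.jC N := by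
    apply Subtype.ext
    rw [H26.coe_embBC]
    have h2 : H26.cEmb L ℂ (Igusa.jd L 1) = Igusa.jd ℂ 1 := Igusa.coeffMap_jd (algebraMap L ℂ) 1
    change H26.cEmb L ℂ (Igusa.jd L 1) = coeffEmb ℂ jq
    rw [h2, Igusa.jd_one, ← jqModC_rat, coeffEmb, coeffMap_jqModC]
  have h2 : H26.embBC ℂ (modularFunctionFieldFull N) (uB L N) =
      ⟨coeffEmb ℂ (modularUnitSeries N), unit_mem_FC N⟩ := by
    apply Subtype.ext
    rw [H26.coe_embBC]
    change coeffMap (algebraMap L ℂ) (coeffMap (algebraMap ℚ L) (modularUnitSeries N)) =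
      coeffMap (algebraMap ℚ ℂ) (modularUnitSeries N)
    rw [coeffMap_coeffMap, hsub]
  have h3 := hw (jB L (one_dvd N))
  rw [h1] at h3
  rw [← hw, h2]
  exact ord_unit_complex N w (by rw [h3]; exact hv)

/-- The divisor of the modular unit. -/
theorem ord_uB {N : ℕ} [NeZero N] (hN : N.Prime) (v : Place L (FB L N)) :
    v.ord (uB L N) = (((N : ℤ) - 1) • (Finsupp.single (cZero L N) 1 -
      Finsupp.single (cInf L N) 1) : Divisor L (FB L N)) v := by
  haveI : CharZero L := charZero_of_injective_algebraMap (algebraMap ℚ L).injective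
  have h12 := cInf_ne_cZero L hN.one_lt
  -- the divisor of `u` is supported on the cusps
  have hdiv : FF.div (K := L) (uB L N) = Finsupp.single (cInf L N) (1 - (N : ℤ)) +
      Finsupp.single (cZero L N) ((cZero L N).ord (uB L N)) := by
    ext w
    rw [FF.div_apply, Finsupp.add_apply]
    by_cases hw1 : w = cInf L N
    · subst hw1
      rw [Finsupp.single_eq_same, Finsupp.single_eq_of_ne h12, cInf_ord_uB, add_zero]
    by_cases hw2 : w = cZero L N
    · subst hw2
      rw [Finsupp.single_eq_same, Finsupp.single_eq_of_ne hw1, zero_add]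
    rw [Finsupp.single_eq_of_ne hw1, Finsupp.single_eq_of_ne hw2, add_zero]
    apply ord_uB_eq_zero
    by_contra hneg
    push Not at hneg
    rcases cusp_cases L hN w hneg with h | h
    · exact hw1 h
    · exact hw2 h
  have hdeg := FF.degree_div (K := L) (uB L N)
  rw [hdiv, map_add, Divisor.degree_single, Divisor.degree_single, H05.deg_eq_one_bc L N,
    H05.deg_eq_one_bc L N] at hdeg
  have h0 : (cZero L N).ord (uB L N) = (N : ℤ) - 1 := by
    push_cast at hdeg
    omega
  rw [← FF.div_apply, hdiv, h0, smul_sub, Finsupp.smul_single, Finsupp.smul_single]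
  simp only [smul_eq_mul, mul_one, Finsupp.sub_apply, Finsupp.add_apply]
  have : (Finsupp.single (cInf L N) (1 - (N : ℤ)) : Divisor L (FB L N)) v =
      - (Finsupp.single (cInf L N) ((N : ℤ) - 1) : Divisor L (FB L N)) v := by
    rw [← Finsupp.neg_apply, ← Finsupp.single_neg, neg_sub]
  rw [this]
  ring

end Descend

end Fermat.Agent.M5
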